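import Mathlib

/-!
# S18, Theorem T, Case B: the abstract norm argument

Pure commutative algebra (Mathlib only).  `R` is a Dedekind domain (in the application: the
normalisation `Bt(M)` of the reduced chart `B_k(M)`), `B ⊆ R` a subalgebra over a field `k` with
`R` finite over `B` (in the application `B = B_k(M)`), and `S ⊇ R` a Dedekind domain finite over
`R` (in the application `S = B_k(rM)`, which is Dedekind by Case A).

* `eq_top_of_uniformizer` : if all residue fields of `R` are `k`, every maximal ideal `Q` of `R`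
  contains an element of `B` outside `Q ^ 2`, and `B` separates the maximal ideals of `R`,
  then `B = R`.
* `eq_top_of_intNorm_mem` : if all residue fields of `S` are `k` and the norm `S → R` takes its
  values in `B`, then `B = R`.
-/

set_option autoImplicit false

namespace Fermat.Agent.S18.T7102

open Ideal

section Unif

variable {k : Type*} [Field k] {R : Type*} [CommRing R] [IsDedekindDomain R] [Algebra k R]

/-- In a Dedekind domain, an ideal contained in the maximal ideal `Q`, in no other maximal ideal,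
and containing an element outside `Q ^ 2`, is `Q`. -/
theorem eq_of_le_of_unique_of_notMem_sq {Q I : Ideal R} (hIQ : I ≤ Q)
    (huniq : ∀ Q' : Ideal R, Q'.IsMaximal → I ≤ Q' → Q' = Q) {π : R} (hπI : π ∈ I)
    (hπ : π ∉ Q ^ 2) : I = Q := by
  obtain ⟨J, rfl⟩ : Q ∣ I := Ideal.dvd_iff_le.mpr hIQ
  by_cases hJ : J = ⊤
  · rw [hJ, Ideal.mul_top]
  · exfalso
    obtain ⟨Q', hQ', hJQ'⟩ := Ideal.exists_le_maximal J hJ
    have h := huniq Q' hQ' (Ideal.mul_le_right.trans hJQ')
    subst h
    exact hπ (by rw [pow_two]; exact Ideal.mul_mono_right hJQ' hπI)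

/-- **Nakayama over all maximal ideals**: a subalgebra `B` over which `R` is finite is everything
as soon as `R = B + X R` for every maximal ideal `X` of `B`. -/
theorem eq_top_of_forall_maximal {A : Type*} [CommRing A] [Algebra k A] (B : Subalgebra k A)
    [Module.Finite B A]
    (h : ∀ X : Ideal B, X.IsMaximal → ∀ x : A, ∃ b : B, x - (b : A) ∈ X.map (algebraMap B A)) :
    B = ⊤ := by
  classical
  let S : Submodule B A := LinearMap.range (Algebra.linearMap B A)
  have hS : ∀ x : A, x ∈ S ↔ x ∈ B := by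
    intro x
    constructor
    · rintro ⟨b, rfl⟩; exact b.2
    · intro hx; exact ⟨⟨x, hx⟩, rfl⟩
  rw [eq_top_iff]
  intro x _
  rw [← hS]
  by_contra hx
  have hAnn : S.colon (⊤ : Submodule B A) ≠ ⊤ := by
    intro htop
    have h1 : (1 : B) ∈ S.colon (⊤ : Submodule B A) := htop ▸ Submodule.mem_top
    rw [Submodule.mem_colon] at h1
    exact hx (by simpa using h1 x Submodule.mem_top)
  obtain ⟨X, hX, hAX⟩ := Ideal.exists_le_maximal _ hAnn
  have hfg : (⊤ : Submodule B (A ⧸ S)).FG := Module.Finite.fg_top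
  have hle : (⊤ : Submodule B (A ⧸ S)) ≤ X • ⊤ := by
    intro m _
    obtain ⟨y, rfl⟩ := Submodule.Quotient.mk_surjective S m
    obtain ⟨b, hb⟩ := h X hX y
    have h1 : y - (b : A) ∈ X • (⊤ : Submodule B A) := by
      rw [Ideal.smul_top_eq_map]
      exact hb
    have h2 : S.mkQ (y - (b : A)) ∈ X • (⊤ : Submodule B (A ⧸ S)) := by
      have := Submodule.mem_map_of_mem (f := S.mkQ) h1
      rw [Submodule.map_smul''] at this
      exact Submodule.smul_mono le_rfl le_top this
    have h3 : S.mkQ (y - (b : A)) = Submodule.Quotient.mk y := by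
      rw [map_sub]
      have : S.mkQ (b : A) = 0 := by
        rw [Submodule.mkQ_apply, Submodule.Quotient.mk_eq_zero]
        exact ⟨b, rfl⟩
      rw [this, sub_zero]
      rfl
    rw [← h3]
    exact h2
  obtain ⟨r, hr1, hr⟩ :=
    Submodule.exists_sub_one_mem_and_smul_eq_zero_of_fg_of_le_smul X _ hfg hle
  have hrAnn : r ∈ S.colon (⊤ : Submodule B A) := by
    rw [Submodule.mem_colon]
    intro y _
    have := hr (Submodule.Quotient.mk y) Submodule.mem_top
    rw [← Submodule.Quotient.mk_smul, Submodule.Quotient.mk_eq_zero] at this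
    exact this
  have h1X : (1 : B) ∈ X := by
    have := X.sub_mem (hAX hrAnn) hr1
    simpa using this
  exact hX.ne_top ((Ideal.eq_top_iff_one X).mpr h1X)

/-- `B = R` as soon as `B` contains the constants, a uniformiser at every maximal ideal of `R`,
and separates the maximal ideals of `R`. -/
theorem eq_top_of_uniformizer (B : Subalgebra k R) [Module.Finite B R]
    (hres : ∀ Q : Ideal R, Q.IsMaximal → Function.Surjective (algebraMap k (R ⧸ Q)))
    (huni : ∀ Q : Ideal R, Q.IsMaximal → ∃ π ∈ B, π ∈ Q ∧ π ∉ Q ^ 2)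
    (hsep : ∀ Q₁ Q₂ : Ideal R, Q₁.IsMaximal → Q₂.IsMaximal → Q₁ ≠ Q₂ →
      ∃ b ∈ B, b ∈ Q₁ ∧ b ∉ Q₂) :
    B = ⊤ := by
  apply eq_top_of_forall_maximal
  intro X hX x
  have hint : Algebra.IsIntegral B R := Algebra.IsIntegral.of_finite B R
  have hker : RingHom.ker (algebraMap B R) ≤ X := by
    have : RingHom.ker (algebraMap B R) = ⊥ :=
      (RingHom.injective_iff_ker_eq_bot _).mp Subtype.val_injective
    rw [this]; exact bot_le
  obtain ⟨Q, hQ, hQX⟩ := Ideal.exists_ideal_over_maximal_of_isIntegral X hker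
  have hIQ : X.map (algebraMap B R) ≤ Q := by
    rw [Ideal.map_le_iff_le_comap, hQX]
  have huniq : ∀ Q' : Ideal R, Q'.IsMaximal → X.map (algebraMap B R) ≤ Q' → Q' = Q := by
    intro Q' hQ' hle
    by_contra hne
    obtain ⟨b, hbB, hbQ', hbQ⟩ := hsep Q' Q hQ' hQ hne
    have hX' : X = Q'.comap (algebraMap B R) := by
      refine hX.eq_of_le ?_ (Ideal.map_le_iff_le_comap.mp hle)
      exact (Ideal.comap_ne_top _ hQ'.ne_top)
    have : (⟨b, hbB⟩ : B) ∈ Q.comap (algebraMap B R) := by
      rw [hQX, hX']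
      exact hbQ'
    exact hbQ this
  obtain ⟨π, hπB, hπQ, hπ2⟩ := huni Q hQ
  have hπI : π ∈ X.map (algebraMap B R) := by
    have : (⟨π, hπB⟩ : B) ∈ X := by
      rw [← hQX]; exact hπQ
    exact Ideal.mem_map_of_mem (algebraMap B R) this
  have hI : X.map (algebraMap B R) = Q := eq_of_le_of_unique_of_notMem_sq hIQ huniq hπI hπ2
  obtain ⟨c, hc⟩ := hres Q hQ (Ideal.Quotient.mk Q x)
  refine ⟨⟨algebraMap k R c, B.algebraMap_mem c⟩, ?_⟩
  rw [hI]
  rw [← Ideal.Quotient.eq, ← hc]
  rfl

end Unif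

section Norm

open Module

variable {R : Type*} [CommRing R] [IsDedekindDomain R] {S : Type*} [CommRing S]
  [IsDedekindDomain S] [Algebra R S] [Module.Finite R S] [IsTorsionFree R S]

omit [Module.Finite R S] in
theorem algebraMap_injective_of_torsionFree : Function.Injective (algebraMap R S) := by
  rw [injective_iff_map_eq_zero]
  intro r hr
  by_contra hr0
  have hreg : IsSMulRegular S r := Module.IsTorsionFree.isSMulRegular (IsRegular.of_ne_zero hr0)
  have h : r • (1 : S) = r • (0 : S) := by rw [Algebra.smul_def, mul_one, hr, smul_zero]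
  exact one_ne_zero (hreg h)

/-- a maximal ideal of `S` over a given maximal ideal of `R` -/
theorem exists_maximal_over {Q : Ideal R} (hQ : Q.IsMaximal) :
    ∃ P : Ideal S, P.IsMaximal ∧ P.comap (algebraMap R S) = Q := by
  have hint : Algebra.IsIntegral R S := Algebra.IsIntegral.of_finite R S
  refine Ideal.exists_ideal_over_maximal_of_isIntegral (S := S) Q ?_
  rw [(RingHom.injective_iff_ker_eq_bot _).mp algebraMap_injective_of_torsionFree]
  exact bot_le

/-- if `relNorm I ≤ Q` (`Q` maximal) then `I` lies in a maximal ideal over `Q` -/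
theorem exists_over_of_relNorm_le {Q : Ideal R} (hQ : Q.IsMaximal) (I : Ideal S)
    (h : Ideal.relNorm R I ≤ Q) :
    ∃ P : Ideal S, P.IsMaximal ∧ P.comap (algebraMap R S) = Q ∧ I ≤ P := by
  have hint : Algebra.IsIntegral R S := Algebra.IsIntegral.of_finite R S
  have hQP : Q.IsPrime := hQ.isPrime
  revert h
  induction I using UniqueFactorizationMonoid.induction_on_prime with
  | h₁ =>
    intro _
    obtain ⟨P, hP, hPQ⟩ := exists_maximal_over (S := S) hQ
    exact ⟨P, hP, hPQ, by rw [Ideal.zero_eq_bot]; exact bot_le⟩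
  | h₂ x hx =>
    intro h
    rw [Ideal.isUnit_iff] at hx
    subst hx
    rw [Ideal.relNorm_top] at h
    exact absurd (top_le_iff.mp h) hQ.ne_top
  | h₃ a p ha hp ih =>
    intro h
    rw [map_mul, hQP.mul_le] at h
    rcases h with h | h
    · have hp0 : p ≠ ⊥ := hp.ne_zero
      have hpP : p.IsPrime := (Ideal.prime_iff_isPrime hp0).mp hp
      have hpM : p.IsMaximal := hpP.isMaximal hp0
      have hlies : p.LiesOver (p.comap (algebraMap R S)) := ⟨rfl⟩
      have hp0P : (p.comap (algebraMap R S)).IsPrime := Ideal.comap_isPrime _ _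
      obtain ⟨s, hs⟩ := Ideal.exists_relNorm_eq_pow_of_isPrime p (p.comap (algebraMap R S))
      rw [hs] at h
      have hle : p.comap (algebraMap R S) ≤ Q := Ideal.IsPrime.le_of_pow_le h
      have hp0ne : p.comap (algebraMap R S) ≠ ⊥ := fun h0 => hp0 (Ideal.eq_bot_of_comap_eq_bot h0)
      have hp0M : (p.comap (algebraMap R S)).IsMaximal := hp0P.isMaximal hp0ne
      exact ⟨p, hpM, hp0M.eq_of_le hQ.ne_top hle, Ideal.mul_le_left⟩
    · obtain ⟨P, hP, hPQ, hle⟩ := ih h
      exact ⟨P, hP, hPQ, Ideal.mul_le_right.trans hle⟩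

/-- the relative norm of a prime of residue degree one (all primes over `Q` being of residue
degree one) is `Q` -/
theorem relNorm_eq_of_inertiaDeg_eq_one {Q : Ideal R} (hQ : Q.IsMaximal) (hQ0 : Q ≠ ⊥)
    (hdeg : ∀ P : Ideal S, P.IsMaximal → P.comap (algebraMap R S) = Q → P.inertiaDeg R = 1)
    {P : Ideal S} (hP : P.IsMaximal) (hPQ : P.comap (algebraMap R S) = Q) :
    Ideal.relNorm R P = Q := by
  classical
  have hQP : Q.IsPrime := hQ.isPrime
  have hint : Algebra.IsIntegral R S := Algebra.IsIntegral.of_finite R S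
  have hmaxOf : ∀ P' : Q.primesOver S, P'.1.IsMaximal := by
    intro P'
    have h1 : P'.1.IsPrime := P'.2.1
    have h2 : P'.1.LiesOver Q := P'.2.2
    have hne : P'.1 ≠ ⊥ := by
      intro h0
      apply hQ0
      rw [h2.over, h0]
      exact (RingHom.injective_iff_ker_eq_bot _).mp algebraMap_injective_of_torsionFree
    exact h1.isMaximal hne
  have hsex : ∀ P' : Q.primesOver S, ∃ s : ℕ, 1 ≤ s ∧ Ideal.relNorm R P'.1 = Q ^ s := by
    intro P'
    have h1 : P'.1.IsPrime := P'.2.1
    have h2 : P'.1.LiesOver Q := P'.2.2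
    obtain ⟨s, hs⟩ := Ideal.exists_relNorm_eq_pow_of_isPrime P'.1 Q
    refine ⟨s, ?_, hs⟩
    by_contra h0
    have hs0 : s = 0 := by omega
    subst hs0
    rw [pow_zero, Ideal.one_eq_top] at hs
    have h3 := Ideal.relNorm_le_comap R P'.1
    rw [hs, top_le_iff] at h3
    exact Ideal.comap_ne_top _ h1.ne_top h3
  choose s hs1 hs using hsex
  have h1 : Ideal.relNorm R (Q.map (algebraMap R S)) = Q ^ finrank R S :=
    Ideal.relNorm_algebraMap S Q
  have h2 : Q.map (algebraMap R S) =
      ∏ P' ∈ (Q.primesOver S).toFinset, P' ^ P'.ramificationIdx R :=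
    Ideal.map_algebraMap_eq_finsetProd_pow hQ0
  have h3 : Ideal.relNorm R (Q.map (algebraMap R S)) =
      Q ^ ∑ P' : Q.primesOver S, s P' * P'.1.ramificationIdx R := by
    rw [h2, map_prod, ← Finset.prod_set_coe (s := Q.primesOver S)
      (f := fun P' => Ideal.relNorm R (P' ^ P'.ramificationIdx R)), ← Finset.prod_pow_eq_pow_sum]
    refine Finset.prod_congr rfl fun P' _ => ?_
    rw [map_pow, hs P', pow_mul]
  have h4 : ∑ P' : Q.primesOver S, s P' * P'.1.ramificationIdx R = finrank R S :=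
    (Ideal.pow_right_strictAnti Q hQ0 hQ.ne_top).injective (h3.symm.trans h1)
  have h5 : ∑ P' : Q.primesOver S, P'.1.ramificationIdx R * P'.1.inertiaDeg R = finrank R S :=
    Ideal.sum_ramification_inertia_eq_finrank Q S
  have h6 : ∀ P' : Q.primesOver S, P'.1.inertiaDeg R = 1 := fun P' =>
    hdeg P'.1 (hmaxOf P') (P'.2.2.over).symm
  have h7 : ∀ P' : Q.primesOver S, 0 < P'.1.ramificationIdx R := fun P' =>
    have : P'.1.IsPrime := P'.2.1
    Ideal.ramificationIdx_pos P'.1 R
  have h8 : ∑ P' : Q.primesOver S, s P' * P'.1.ramificationIdx R =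
      ∑ P' : Q.primesOver S, 1 * P'.1.ramificationIdx R := by
    rw [h4, ← h5]
    refine Finset.sum_congr rfl fun P' _ => ?_
    rw [h6 P', mul_one, one_mul]
  have h9 : ∀ P' : Q.primesOver S, s P' = 1 := by
    by_contra hcon
    push Not at hcon
    obtain ⟨P0, hP0⟩ := hcon
    have hlt : ∑ P' : Q.primesOver S, 1 * P'.1.ramificationIdx R <
        ∑ P' : Q.primesOver S, s P' * P'.1.ramificationIdx R := by
      refine Finset.sum_lt_sum (fun P' _ => Nat.mul_le_mul_right _ (hs1 P')) ⟨P0, Finset.mem_univ _, ?_⟩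
      have := hs1 P0
      exact Nat.mul_lt_mul_of_pos_right (by omega) (h7 P0)
    omega
  have := hs ⟨P, hP.isPrime, ⟨hPQ.symm⟩⟩
  rw [h9, pow_one] at this
  exact this

/-- a norm which is a uniformiser at `Q` -/
theorem exists_intNorm_mem_notMem_sq {Q : Ideal R} (hQ : Q.IsMaximal) (hQ0 : Q ≠ ⊥)
    (hdeg : ∀ P : Ideal S, P.IsMaximal → P.comap (algebraMap R S) = Q → P.inertiaDeg R = 1) :
    ∃ f : S, Algebra.intNorm R S f ∈ Q ∧ Algebra.intNorm R S f ∉ Q ^ 2 := by
  classical
  obtain ⟨P₁, hP₁, hP₁Q⟩ := exists_maximal_over (S := S) hQ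
  have hP₁0 : P₁ ≠ ⊥ := by
    rintro rfl
    apply hQ0
    rw [← hP₁Q]
    exact (RingHom.injective_iff_ker_eq_bot _).mp algebraMap_injective_of_torsionFree
  -- an element of `P₁` outside `P₁ ^ 2`
  have hlt : P₁ ^ 2 < P₁ ^ 1 := Ideal.pow_right_strictAnti P₁ hP₁0 hP₁.ne_top (by norm_num)
  obtain ⟨x₁, hx₁, hx₁'⟩ := SetLike.exists_of_lt hlt
  rw [pow_one] at hx₁
  -- CRT
  have hprime : ∀ P ∈ (Q.primesOver S).toFinset, Prime P := by
    intro P hP
    rw [Set.mem_toFinset] at hP
    have h1 : P.IsPrime := hP.1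
    have hne : P ≠ ⊥ := by
      rintro rfl
      apply hQ0
      rw [hP.2.over]
      exact (RingHom.injective_iff_ker_eq_bot _).mp algebraMap_injective_of_torsionFree
    exact (Ideal.prime_iff_isPrime hne).mpr h1
  obtain ⟨f, hf⟩ := IsDedekindDomain.exists_forall_sub_mem_ideal (s := (Q.primesOver S).toFinset)
    (fun P => P) (fun P => if P = P₁ then 2 else 1) hprime (fun _ _ _ _ h => h)
    (fun P => if P.1 = P₁ then x₁ else 1)
  have hP₁mem : P₁ ∈ (Q.primesOver S).toFinset := by
    rw [Set.mem_toFinset]; exact ⟨hP₁.isPrime, ⟨hP₁Q.symm⟩⟩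
  have hf1 : f - x₁ ∈ P₁ ^ 2 := by
    have := hf P₁ hP₁mem
    simpa using this
  have hfP₁ : f ∈ P₁ := by
    have h1 : f - x₁ ∈ P₁ := Ideal.pow_le_self (by norm_num) hf1
    have := P₁.add_mem h1 hx₁
    simpa using this
  have hfP₁sq : f ∉ P₁ ^ 2 := by
    intro h
    apply hx₁'
    have := (P₁ ^ 2).sub_mem h hf1
    simpa using this
  have hfother : ∀ P : Ideal S, P.IsMaximal → P.comap (algebraMap R S) = Q → P ≠ P₁ → f ∉ P := by
    intro P hP hPQ hne hfP
    have hPmem : P ∈ (Q.primesOver S).toFinset := by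
      rw [Set.mem_toFinset]; exact ⟨hP.isPrime, ⟨hPQ.symm⟩⟩
    have h1 := hf P hPmem
    simp only [if_neg hne, pow_one] at h1
    have := P.sub_mem hfP h1
    rw [sub_sub_cancel] at this
    exact hP.ne_top ((Ideal.eq_top_iff_one P).mpr this)
  -- factor `(f) = P₁ * J`
  obtain ⟨J, hJ⟩ : P₁ ∣ Ideal.span {f} :=
    Ideal.dvd_iff_le.mpr ((Ideal.span_singleton_le_iff_mem P₁).mpr hfP₁)
  have hJQ : ¬ Ideal.relNorm R J ≤ Q := by
    intro hle
    obtain ⟨P, hP, hPQ, hJP⟩ := exists_over_of_relNorm_le hQ J hle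
    by_cases hPP : P = P₁
    · subst hPP
      apply hfP₁sq
      have : Ideal.span {f} ≤ P ^ 2 := by
        rw [hJ, pow_two]; exact Ideal.mul_mono_right hJP
      exact this (Ideal.mem_span_singleton_self f)
    · apply hfother P hP hPQ hPP
      have : Ideal.span {f} ≤ P := by
        rw [hJ]; exact Ideal.mul_le_right.trans hJP
      exact this (Ideal.mem_span_singleton_self f)
  have hN : Ideal.span {Algebra.intNorm R S f} = Q * Ideal.relNorm R J := by
    rw [← Ideal.relNorm_singleton, hJ, map_mul,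
      relNorm_eq_of_inertiaDeg_eq_one hQ hQ0 hdeg hP₁ hP₁Q]
  refine ⟨f, ?_, ?_⟩
  · have : Ideal.span {Algebra.intNorm R S f} ≤ Q := by
      rw [hN]; exact Ideal.mul_le_left
    exact this (Ideal.mem_span_singleton_self _)
  · intro hmem
    apply hJQ
    have h1 : Ideal.span {Algebra.intNorm R S f} ≤ Q ^ 2 :=
      (Ideal.span_singleton_le_iff_mem _).mpr hmem
    rw [hN, ← Ideal.dvd_iff_le, pow_two, mul_dvd_mul_iff_left hQ0] at h1
    exact Ideal.dvd_iff_le.mp h1

/-- norms of elements of `R` separate the maximal ideals of `R` -/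
theorem exists_intNorm_mem_notMem {Q₁ Q₂ : Ideal R} (h₁ : Q₁.IsMaximal) (h₂ : Q₂.IsMaximal)
    (hne : Q₁ ≠ Q₂) :
    ∃ f : S, Algebra.intNorm R S f ∈ Q₁ ∧ Algebra.intNorm R S f ∉ Q₂ := by
  obtain ⟨a, ha₁, ha₂⟩ : ∃ a ∈ Q₁, a ∉ Q₂ := by
    by_contra hcon
    push Not at hcon
    exact hne (h₁.eq_of_le h₂.ne_top hcon)
  obtain ⟨P, hP, hPQ⟩ := exists_maximal_over (S := S) h₁
  refine ⟨algebraMap R S a, ?_, ?_⟩
  · have h1 : Ideal.span {algebraMap R S a} ≤ P := by
      rw [Ideal.span_singleton_le_iff_mem]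
      have : a ∈ P.comap (algebraMap R S) := hPQ ▸ ha₁
      exact this
    have h2 := (Ideal.relNorm_mono R h1).trans (Ideal.relNorm_le_comap R P)
    rw [Ideal.relNorm_singleton, hPQ, Ideal.span_singleton_le_iff_mem] at h2
    exact h2
  · intro hmem
    have h1 : Ideal.relNorm R (Ideal.span {algebraMap R S a}) ≤ Q₂ := by
      rw [Ideal.relNorm_singleton, Ideal.span_singleton_le_iff_mem]; exact hmem
    obtain ⟨P', hP', hP'Q, hle⟩ := exists_over_of_relNorm_le h₂ _ h1
    apply ha₂
    rw [← hP'Q]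
    exact hle (Ideal.mem_span_singleton_self _)

/-- residue fields of `R` are `k` as soon as those of `S` are -/
theorem residue_surjective_of_over {k : Type*} [Field k] [Algebra k R] [Algebra k S]
    [IsScalarTower k R S]
    (hres : ∀ P : Ideal S, P.IsMaximal → Function.Surjective (algebraMap k (S ⧸ P)))
    {Q : Ideal R} (hQ : Q.IsMaximal) : Function.Surjective (algebraMap k (R ⧸ Q)) := by
  obtain ⟨P, hP, hPQ⟩ := exists_maximal_over (S := S) hQ
  intro y
  obtain ⟨x, rfl⟩ := Ideal.Quotient.mk_surjective y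
  obtain ⟨c, hc⟩ := hres P hP (Ideal.Quotient.mk P (algebraMap R S x))
  refine ⟨c, ?_⟩
  have h1 : algebraMap R S (algebraMap k R c) - algebraMap R S x ∈ P := by
    rw [← Ideal.Quotient.eq, ← hc, ← IsScalarTower.algebraMap_apply]
    rfl
  have h2 : algebraMap k R c - x ∈ P.comap (algebraMap R S) := by
    rw [Ideal.mem_comap, map_sub]; exact h1
  rw [hPQ] at h2
  exact Ideal.Quotient.eq.mpr h2

omit [IsDedekindDomain R] [IsDedekindDomain S] [Module.Finite R S] [IsTorsionFree R S] in
/-- residue degree one when all residue fields of `S` are `k` -/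
theorem inertiaDeg_eq_one_of_residue {k : Type*} [Field k] [Algebra k R] [Algebra k S]
    [IsScalarTower k R S]
    (hres : ∀ P : Ideal S, P.IsMaximal → Function.Surjective (algebraMap k (S ⧸ P)))
    {Q : Ideal R} (hQ : Q.IsMaximal) {P : Ideal S} (hP : P.IsMaximal)
    (hPQ : P.comap (algebraMap R S) = Q) : P.inertiaDeg R = 1 := by
  have hlies : P.LiesOver Q := ⟨hPQ.symm⟩
  rw [Ideal.inertiaDeg_eq_of_isMaximal Q P]
  have hinj : Function.Injective (algebraMap (R ⧸ Q) (S ⧸ P)) :=
    FaithfulSMul.algebraMap_injective _ _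
  have hsurj : Function.Surjective (algebraMap (R ⧸ Q) (S ⧸ P)) := by
    intro w
    obtain ⟨c, hc⟩ := hres P hP w
    exact ⟨algebraMap k (R ⧸ Q) c, by
      rw [← hc]; exact (IsScalarTower.algebraMap_apply k (R ⧸ Q) (S ⧸ P) c).symm⟩
  have hnt : Nontrivial (R ⧸ Q) := Ideal.Quotient.nontrivial_iff.mpr hQ.ne_top
  rw [← (LinearEquiv.ofBijective (Algebra.linearMap (R ⧸ Q) (S ⧸ P)) ⟨hinj, hsurj⟩).finrank_eq,
    Module.finrank_self]

/-- **Case B, abstract form.**  `R ⊆ S` Dedekind domains, `S` finite over `R`, both algebras over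
a field `k` which is the residue field of `S` at every maximal ideal; `B ⊆ R` a `k`-subalgebra
over which `R` is finite.  If the norm `S → R` takes its values in `B`, then `B = R`. -/
theorem eq_top_of_intNorm_mem {k : Type*} [Field k] [Algebra k R] [Algebra k S]
    [IsScalarTower k R S] (B : Subalgebra k R) [Module.Finite B R]
    (hres : ∀ P : Ideal S, P.IsMaximal → Function.Surjective (algebraMap k (S ⧸ P)))
    (hnorm : ∀ f : S, Algebra.intNorm R S f ∈ B) : B = ⊤ := by
  have hresR : ∀ Q : Ideal R, Q.IsMaximal → Function.Surjective (algebraMap k (R ⧸ Q)) :=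
    fun Q hQ => residue_surjective_of_over hres hQ
  by_cases hfield : IsField R
  · rw [eq_top_iff]
    intro x _
    have hbot : (⊥ : Ideal R).IsMaximal := Ring.isField_iff_maximal_bot.mp hfield
    obtain ⟨c, hc⟩ := hresR ⊥ hbot (Ideal.Quotient.mk ⊥ x)
    have h1 : algebraMap k R c - x ∈ (⊥ : Ideal R) := Ideal.Quotient.eq.mp hc
    rw [Ideal.mem_bot, sub_eq_zero] at h1
    rw [← h1]
    exact B.algebraMap_mem c
  · refine eq_top_of_uniformizer B hresR ?_ ?_
    · intro Q hQ
      have hQ0 : Q ≠ ⊥ := Ring.ne_bot_of_isMaximal_of_not_isField hQ hfield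
      obtain ⟨f, hf1, hf2⟩ := exists_intNorm_mem_notMem_sq (S := S) hQ hQ0
        (fun P hP hPQ => inertiaDeg_eq_one_of_residue hres hQ hP hPQ)
      exact ⟨_, hnorm f, hf1, hf2⟩
    · intro Q₁ Q₂ h₁ h₂ hne
      obtain ⟨f, hf1, hf2⟩ := exists_intNorm_mem_notMem (S := S) h₁ h₂ hne
      exact ⟨_, hnorm f, hf1, hf2⟩

end Norm

end Fermat.Agent.S18.T7102
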