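import Mathlib
import Fermat.Agent.S18.T7102.CaseB

/-!
# S18, Theorem T, Case B in FIELD form (norm descent between function fields)

`k` algebraically closed, `F₁ ⊆ F₂` fields over `k`, `x ∈ F₁` with `F₁ / k(x)` finite separable and
`F₂ / F₁` finite separable.  Let `B ⊆ F₁` be a `k`-subalgebra containing `x` such that the norm
`F₂ → F₁` maps every element of `F₂` integral over `k[x]` into `B`.  Then `B` contains the integral
closure of `k[x]` in `F₁`  (`mem_of_isIntegral_of_norm_mem`).

Application (notes/S18_T_design.md §G, CASE B): `F₁ = Ft A M`, `F₂ = Ft A (r M)`, `x = j̄`,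
`B` = the reduced chart of level `M`; the hypothesis is Theorem T at level `r M` (Case A) together
with (E2) "norms of chart-integral series are chart-integral, compatibly with reduction".
The statement is phrased with `IsIntegral (Algebra.adjoin k {x})`, as in the frozen `thmT_fin`.
All the Dedekind plumbing (integral closures, `Algebra.intNorm`, residue fields) is done here, on
top of the abstract `eq_top_of_intNorm_mem` of `CaseB.lean`.
-/

set_option autoImplicit false

namespace Fermat.Agent.S18.T7102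

open IntermediateField
open scoped IntermediateField.algebraAdjoinAdjoin

section Icl

variable {k : Type*} [Field k] {F₁ : Type*} [Field F₁] [Algebra k F₁]

/-- `k[x]` is a principal ideal ring (a quotient of `k[X]`). -/
theorem isPrincipalIdealRing_adjoin_singleton (x : F₁) :
    IsPrincipalIdealRing (Algebra.adjoin k {x}) := by
  have hmem : ∀ p : Polynomial k, Polynomial.aeval x p ∈ Algebra.adjoin k {x} := fun p => by
    rw [Algebra.adjoin_singleton_eq_range_aeval]; exact ⟨p, rfl⟩
  let f : Polynomial k →ₐ[k] Algebra.adjoin k {x} :=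
    (Polynomial.aeval x).codRestrict (Algebra.adjoin k {x}) hmem
  refine IsPrincipalIdealRing.of_surjective f ?_
  rintro ⟨y, hy⟩
  rw [Algebra.adjoin_singleton_eq_range_aeval] at hy
  obtain ⟨p, rfl⟩ := hy
  exact ⟨p, rfl⟩

variable (k) in
/-- The integral closure of `k[x]` in `F₁`, as a `k`-subalgebra of `F₁`. -/
noncomputable def icl (x : F₁) : Subalgebra k F₁ :=
  (integralClosure (Algebra.adjoin k {x}) F₁).restrictScalars k

theorem mem_icl {x f : F₁} : f ∈ icl k x ↔ IsIntegral (Algebra.adjoin k {x}) f := Iff.rfl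

theorem adjoin_le_icl (x : F₁) : Algebra.adjoin k {x} ≤ icl k x := by
  intro d hd
  rw [mem_icl]
  exact isIntegral_algebraMap (R := Algebra.adjoin k {x}) (x := ⟨d, hd⟩)

variable (x : F₁) [FiniteDimensional k⟮x⟯ F₁]

theorem isFractionRing_icl : IsFractionRing (icl k x) F₁ := by
  have h : IsFractionRing (integralClosure (Algebra.adjoin k {x}) F₁) F₁ :=
    IsIntegralClosure.isFractionRing_of_finite_extension (Algebra.adjoin k {x}) k⟮x⟯ F₁ _
  exact h

variable [Algebra.IsSeparable k⟮x⟯ F₁]

theorem isDedekindDomain_icl : IsDedekindDomain (icl k x) := by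
  have hpid : IsPrincipalIdealRing (Algebra.adjoin k {x}) :=
    isPrincipalIdealRing_adjoin_singleton x
  have h : IsDedekindDomain (integralClosure (Algebra.adjoin k {x}) F₁) :=
    IsIntegralClosure.isDedekindDomain (Algebra.adjoin k {x}) k⟮x⟯ F₁ _
  exact h

theorem finiteType_icl : Algebra.FiniteType k (icl k x) := by
  have hpid : IsPrincipalIdealRing (Algebra.adjoin k {x}) :=
    isPrincipalIdealRing_adjoin_singleton x
  have h1 : Algebra.FiniteType k (Algebra.adjoin k {x}) :=
    Algebra.FiniteType.adjoin_of_finite (Set.finite_singleton x)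
  have h2 : Module.Finite (Algebra.adjoin k {x}) (integralClosure (Algebra.adjoin k {x}) F₁) :=
    IsIntegralClosure.finite (Algebra.adjoin k {x}) k⟮x⟯ F₁ _
  have h3 : Algebra.FiniteType k (integralClosure (Algebra.adjoin k {x}) F₁) :=
    Algebra.FiniteType.trans h1 inferInstance
  exact h3

end Icl

section Residue

variable {k : Type*} [Field k] [IsAlgClosed k]

/-- Over an algebraically closed field, the residue fields of a finitely generated algebra at
its maximal ideals are trivial (Zariski's lemma). -/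
theorem residue_surjective_of_finiteType {S : Type*} [CommRing S] [Algebra k S]
    [Algebra.FiniteType k S] (P : Ideal S) (hP : P.IsMaximal) :
    Function.Surjective (algebraMap k (S ⧸ P)) := by
  let _ : Field (S ⧸ P) := Ideal.Quotient.field P
  have hft : Algebra.FiniteType k (S ⧸ P) :=
    Algebra.FiniteType.of_surjective (Ideal.Quotient.mkₐ k P) (Ideal.Quotient.mkₐ_surjective k P)
  have hfin : Module.Finite k (S ⧸ P) := finite_of_finite_type_of_isJacobsonRing k (S ⧸ P)
  have hint : Algebra.IsIntegral k (S ⧸ P) := inferInstance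
  exact (IsAlgClosed.algebraMap_bijective_of_isIntegral (k := k) (K := S ⧸ P)).2

end Residue

section Main

variable {k : Type*} [Field k] [IsAlgClosed k]
  {F₁ F₂ : Type*} [Field F₁] [Field F₂] [Algebra k F₁] [Algebra k F₂] [Algebra F₁ F₂]
  [IsScalarTower k F₁ F₂]

omit [IsAlgClosed k] in
/-- An element of `F₂` integral over the integral closure of `k[x]` in `F₁` is integral over
`k[x']`, `x'` the image of `x` in `F₂`. -/
theorem isIntegral_adjoin_of_isIntegral_icl (x : F₁) {g : F₂} (hg : IsIntegral (icl k x) g) :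
    IsIntegral (Algebra.adjoin k {algebraMap F₁ F₂ x}) g := by
  -- the ring hom `k[x] → k[x']`
  have hmap : ∀ d : Algebra.adjoin k {x},
      algebraMap F₁ F₂ (d : F₁) ∈ Algebra.adjoin k {algebraMap F₁ F₂ x} := by
    rintro ⟨d, hd⟩
    have h1 : (Algebra.adjoin k {x}).map (IsScalarTower.toAlgHom k F₁ F₂) =
        Algebra.adjoin k {algebraMap F₁ F₂ x} := by
      rw [AlgHom.map_adjoin]; simp
    rw [← h1]
    exact ⟨d, hd, rfl⟩
  let ι : Algebra.adjoin k {x} →+* Algebra.adjoin k {algebraMap F₁ F₂ x} :=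
    ((algebraMap F₁ F₂).comp (Algebra.adjoin k {x}).val.toRingHom).codRestrict
      (Algebra.adjoin k {algebraMap F₁ F₂ x}).toSubring hmap
  -- the ring hom `k[x] → icl`
  let κ : Algebra.adjoin k {x} →+* icl k x :=
    (Algebra.adjoin k {x}).val.toRingHom.codRestrict (icl k x).toSubring
      (fun d => adjoin_le_icl x d.2)
  let _ : Algebra (Algebra.adjoin k {x}) (icl k x) := κ.toAlgebra
  have : IsScalarTower (Algebra.adjoin k {x}) (icl k x) F₁ :=
    IsScalarTower.of_algebraMap_eq (fun _ => rfl)
  have : IsScalarTower (Algebra.adjoin k {x}) (icl k x) F₂ :=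
    IsScalarTower.of_algebraMap_eq (fun _ => rfl)
  have : Algebra.IsIntegral (Algebra.adjoin k {x}) (icl k x) := by
    refine ⟨fun r => ?_⟩
    have h1 : IsIntegral (Algebra.adjoin k {x}) (algebraMap (icl k x) F₁ r) := r.2
    exact (isIntegral_algebraMap_iff (FaithfulSMul.algebraMap_injective (icl k x) F₁)).mp h1
  have h2 : IsIntegral (Algebra.adjoin k {x}) g := isIntegral_trans g hg
  let _ : Algebra (Algebra.adjoin k {x}) (Algebra.adjoin k {algebraMap F₁ F₂ x}) := ι.toAlgebra
  have : IsScalarTower (Algebra.adjoin k {x}) (Algebra.adjoin k {algebraMap F₁ F₂ x}) F₂ :=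
    IsScalarTower.of_algebraMap_eq (fun _ => rfl)
  exact h2.tower_top

variable (k) in
omit [IsAlgClosed k] in
/-- The isomorphism `k(x) ≃ k(x')`, `x'` the image of `x ∈ F₁` in `F₂`. -/
noncomputable def adjoinEquiv (x : F₁) : k⟮x⟯ ≃ₐ[k] k⟮algebraMap F₁ F₂ x⟯ :=
  (IntermediateField.equivMap k⟮x⟯ (IsScalarTower.toAlgHom k F₁ F₂)).trans
    (IntermediateField.equivOfEq (by
      rw [IntermediateField.adjoin_map, Set.image_singleton]; rfl))

omit [IsAlgClosed k] in
theorem adjoinEquiv_apply (x : F₁) (c : k⟮x⟯) :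
    ((adjoinEquiv k (F₂ := F₂) x c : k⟮algebraMap F₁ F₂ x⟯) : F₂) = algebraMap F₁ F₂ (c : F₁) :=
  rfl

omit [IsAlgClosed k] in
theorem adjoinEquiv_comp (x : F₁) :
    (algebraMap k⟮x⟯ F₂).comp
        (((adjoinEquiv k (F₂ := F₂) x).symm.toRingEquiv : k⟮algebraMap F₁ F₂ x⟯ ≃+* k⟮x⟯) :
          k⟮algebraMap F₁ F₂ x⟯ →+* k⟮x⟯) =
      ((RingEquiv.refl F₂ : F₂ ≃+* F₂) : F₂ →+* F₂).comp
        (algebraMap k⟮algebraMap F₁ F₂ x⟯ F₂) := by
  ext c
  obtain ⟨c', rfl⟩ := (adjoinEquiv k (F₂ := F₂) x).surjective c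
  simp only [RingHom.coe_comp, Function.comp_apply, RingHom.coe_coe, AlgEquiv.coe_ringEquiv,
    AlgEquiv.symm_apply_apply, RingEquiv.coe_ringHom_refl, RingHom.id_comp]
  rfl

omit [IsAlgClosed k] in
/-- `F₂ / k(x')` finite implies `F₂ / F₁` finite. -/
theorem finiteDimensional_of_adjoin (x : F₁) [FiniteDimensional k⟮algebraMap F₁ F₂ x⟯ F₂] :
    FiniteDimensional F₁ F₂ := by
  have h1 : Module.Finite k⟮x⟯ F₂ :=
    Module.Finite.of_equiv_equiv (adjoinEquiv k (F₂ := F₂) x).symm.toRingEquiv
      (RingEquiv.refl F₂) (adjoinEquiv_comp x)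
  exact Module.Finite.of_restrictScalars_finite k⟮x⟯ F₁ F₂

omit [IsAlgClosed k] in
/-- `F₂ / k(x')` separable implies `F₂ / F₁` separable. -/
theorem isSeparable_of_adjoin (x : F₁) [Algebra.IsSeparable k⟮algebraMap F₁ F₂ x⟯ F₂] :
    Algebra.IsSeparable F₁ F₂ := by
  have h1 : Algebra.IsSeparable k⟮x⟯ F₂ :=
    Algebra.IsSeparable.of_equiv_equiv (adjoinEquiv k (F₂ := F₂) x).symm.toRingEquiv
      (RingEquiv.refl F₂) (adjoinEquiv_comp x)
  exact Algebra.isSeparable_tower_top_of_isSeparable k⟮x⟯ F₁ F₂

/-- **Case B of Theorem T, field form.**  If the norm `F₂ → F₁` maps the elements of `F₂`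
integral over `k[x]` into the `k`-subalgebra `B ∋ x` of `F₁`, then `B` contains the integral closure
of `k[x]` in `F₁`. -/
theorem mem_of_isIntegral_of_norm_mem (x : F₁)
    [FiniteDimensional k⟮x⟯ F₁] [Algebra.IsSeparable k⟮x⟯ F₁]
    [FiniteDimensional F₁ F₂] [Algebra.IsSeparable F₁ F₂]
    (B : Subalgebra k F₁) (hxB : x ∈ B)
    (hnorm : ∀ g : F₂, IsIntegral (Algebra.adjoin k {algebraMap F₁ F₂ x}) g →
      Algebra.norm F₁ g ∈ B) :
    ∀ f : F₁, IsIntegral (Algebra.adjoin k {x}) f → f ∈ B := by
  have hRded : IsDedekindDomain (icl k x) := isDedekindDomain_icl x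
  have hRfrac : IsFractionRing (icl k x) F₁ := isFractionRing_icl x
  have hRft : Algebra.FiniteType k (icl k x) := finiteType_icl x
  have hSded : IsDedekindDomain (integralClosure (icl k x) F₂) :=
    IsIntegralClosure.isDedekindDomain (icl k x) F₁ F₂ _
  have hSfin : Module.Finite (icl k x) (integralClosure (icl k x) F₂) :=
    IsIntegralClosure.finite (icl k x) F₁ F₂ _
  have hSft : Algebra.FiniteType k (integralClosure (icl k x) F₂) :=
    Algebra.FiniteType.trans hRft inferInstance
  have hadj : Algebra.adjoin k {x} ≤ B := Algebra.adjoin_le (by simpa using hxB)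
  -- the trace of `B` on the integral closure
  let B' : Subalgebra k (icl k x) := B.comap (icl k x).val
  -- the integral closure is integral over `B'`
  let κ : Algebra.adjoin k {x} →+* icl k x :=
    (Algebra.adjoin k {x}).val.toRingHom.codRestrict (icl k x).toSubring
      (fun d => adjoin_le_icl x d.2)
  have hκ : κ.IsIntegral := by
    intro r
    let _ : Algebra (Algebra.adjoin k {x}) (icl k x) := κ.toAlgebra
    have : IsScalarTower (Algebra.adjoin k {x}) (icl k x) F₁ :=
      IsScalarTower.of_algebraMap_eq (fun _ => rfl)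
    have h1 : IsIntegral (Algebra.adjoin k {x}) (algebraMap (icl k x) F₁ r) := r.2
    exact (isIntegral_algebraMap_iff (FaithfulSMul.algebraMap_injective (icl k x) F₁)).mp h1
  let θ : Algebra.adjoin k {x} →+* B' :=
    κ.codRestrict B'.toSubring (fun d => hadj d.2)
  have hint : Algebra.IsIntegral B' (icl k x) :=
    ⟨RingHom.IsIntegral.tower_top θ (algebraMap B' (icl k x)) hκ⟩
  have hft' : Algebra.FiniteType B' (icl k x) :=
    Algebra.FiniteType.of_restrictScalars_finiteType k B' (icl k x)
  have hfin' : Module.Finite B' (icl k x) := Algebra.IsIntegral.finite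
  have key : B' = ⊤ := by
    refine eq_top_of_intNorm_mem (S := integralClosure (icl k x) F₂) B'
      (fun P hP => residue_surjective_of_finiteType P hP) (fun s => ?_)
    have h1 : IsIntegral (icl k x) (s : F₂) := s.2
    have h3 := hnorm _ (isIntegral_adjoin_of_isIntegral_icl x h1)
    have h4 : algebraMap (icl k x) F₁
        (Algebra.intNorm (icl k x) (integralClosure (icl k x) F₂) s) =
          Algebra.norm F₁ (algebraMap (integralClosure (icl k x) F₂) F₂ s) :=
      Algebra.algebraMap_intNorm (A := icl k x) (K := F₁) (L := F₂)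
        (B := integralClosure (icl k x) F₂) s
    have h6 : algebraMap (icl k x) F₁
        (Algebra.intNorm (icl k x) (integralClosure (icl k x) F₂) s) ∈ B := by
      rw [h4]; exact h3
    exact h6
  intro f hf
  have h5 : (⟨f, hf⟩ : icl k x) ∈ B' := key ▸ Algebra.mem_top
  exact h5

/-- Variant of `mem_of_isIntegral_of_norm_mem` with the finiteness and separability hypotheses
in the form of the frozen exports R5 (`finiteDimensional_Ft`, `isSeparable_Ft`) at the two
levels. -/
theorem mem_of_isIntegral_of_norm_mem' (x : F₁)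
    [FiniteDimensional k⟮x⟯ F₁] [Algebra.IsSeparable k⟮x⟯ F₁]
    [FiniteDimensional k⟮algebraMap F₁ F₂ x⟯ F₂] [Algebra.IsSeparable k⟮algebraMap F₁ F₂ x⟯ F₂]
    (B : Subalgebra k F₁) (hxB : x ∈ B)
    (hnorm : ∀ g : F₂, IsIntegral (Algebra.adjoin k {algebraMap F₁ F₂ x}) g →
      Algebra.norm F₁ g ∈ B) :
    ∀ f : F₁, IsIntegral (Algebra.adjoin k {x}) f → f ∈ B := by
  have h1 : FiniteDimensional F₁ F₂ := finiteDimensional_of_adjoin (k := k) x
  have h2 : Algebra.IsSeparable F₁ F₂ := isSeparable_of_adjoin (k := k) x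
  exact mem_of_isIntegral_of_norm_mem x B hxB hnorm

end Main

end Fermat.Agent.S18.T7102
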